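/-
P-ES / ES-A/LOC2 (helper7): the three Mathlib-only local lemmas of `Fermat.Agent.H23.EsA.Lemmas2`:
`OrderMoebiusStatement`, `CuspPeriodStatement`, `OrderFiniteStatement`.
-/
import Fermat.Agent.H23.EsA.Lemmas2
import Fermat.Agent.H82.CuspLocal
import Fermat.Agent.H50.EsALocCore

set_option autoImplicit false

noncomputable section

open UpperHalfPlane Filter Topology Function
open scoped MatrixGroups Manifold

namespace Fermat.Agent.H7.EsA

open Fermat.Agent.H23.EsA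

/-- **[ORD-MOEB]** -/
theorem orderMoebius : OrderMoebiusStatement := by
  intro h _ γ z₀
  have hdet1 : ((γ : GL (Fin 2) ℝ)).val.det = 1 :=
    (Matrix.SpecialLinearGroup.map (Int.castRingHom ℝ) γ).det_coe
  have hdet : 0 < ((γ : GL (Fin 2) ℝ)).val.det := by rw [hdet1]; exact one_pos
  exact UpperHalfPlane.meromorphicOrderAt_comp_smul (f := h) (τ := z₀) hdet

/-- **[ORD-FIN]** -/
theorem orderFinite : OrderFiniteStatement := by
  intro h hh hh0 z₀
  have han := Fermat.Agent.H61.analyticAt_comp_ofComplex hh z₀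
  have hne := Fermat.Agent.H50.analyticOrderAt_ne_top_of_ne_zero hh hh0 z₀
  obtain ⟨n, hn⟩ := ENat.ne_top_iff_exists.mp hne
  refine ⟨n, ?_⟩
  rw [han.meromorphicOrderAt_eq, ← hn]
  rfl

/-- `𝕢_w z = (𝕢_{w m} z) ^ m`. -/
lemma qParam_mul_pow (w m : ℕ) (hw : 0 < w) (hm : 0 < m) (z : ℂ) :
    Periodic.qParam ((w * m : ℕ) : ℝ) z ^ m = Periodic.qParam (w : ℝ) z := by
  simp only [Periodic.qParam]
  rw [← Complex.exp_nat_mul]
  congr 1
  have hw' : (w : ℂ) ≠ 0 := by exact_mod_cast hw.ne'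
  have hm' : (m : ℂ) ≠ 0 := by exact_mod_cast hm.ne'
  push_cast
  field_simp

/-- Change of period for cusp functions: `cuspFunction (w m) f q = cuspFunction w f (q ^ m)` for
`q ≠ 0`, when `f` is `w`-periodic. -/
lemma cuspFunction_mul_eq (w m : ℕ) (hw : 0 < w) (hm : 0 < m) {f : ℂ → ℂ}
    (hf : Periodic f (w : ℝ)) {q : ℂ} (hq : q ≠ 0) :
    Periodic.cuspFunction ((w * m : ℕ) : ℝ) f q = Periodic.cuspFunction (w : ℝ) f (q ^ m) := by
  have hwm : (((w * m : ℕ) : ℝ)) ≠ 0 := by exact_mod_cast (Nat.mul_pos hw hm).ne'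
  have hw0 : (w : ℝ) ≠ 0 := by exact_mod_cast hw.ne'
  rw [Periodic.cuspFunction_eq_of_nonzero _ _ hq]
  set z := Periodic.invQParam ((w * m : ℕ) : ℝ) q with hz
  have h1 : Periodic.qParam ((w * m : ℕ) : ℝ) z = q := Periodic.qParam_right_inv hwm hq
  have h2 : Periodic.qParam (w : ℝ) z = q ^ m := by
    rw [← qParam_mul_pow w m hw hm z, h1]
  rw [← h2, Periodic.eq_cuspFunction hw0 hf]

/-- **[CUSP-PER]** -/
theorem cuspPeriod : CuspPeriodStatement := by
  intro w m hw hm H hH hH0 hper hgrow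
  obtain ⟨M, C, Y, hgr⟩ := hgrow
  have : NeZero w := ⟨hw.ne'⟩
  have hmero : MeromorphicAt (Periodic.cuspFunction (w : ℝ) (H ∘ ofComplex)) 0 :=
    Fermat.Agent.H82.cm_meromorphicAt_cuspFunction_of_growth w H hH hper M C Y hgr
  have hne : meromorphicOrderAt (Periodic.cuspFunction (w : ℝ) (H ∘ ofComplex)) 0 ≠ ⊤ := by
    intro htop
    apply hH0
    have h0 : MDiff (0 : ℍ → ℂ) := by
      rw [UpperHalfPlane.mdifferentiable_iff]
      exact differentiableOn_const (c := (0 : ℂ))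
    refine Fermat.Agent.H82.cl_eq_of_cuspFunction_eventuallyEq w hH h0 hper (fun _ => rfl) ?_
    have := meromorphicOrderAt_eq_top_iff.mp htop
    filter_upwards [this, self_mem_nhdsWithin] with q hq hq0
    rw [hq, Periodic.cuspFunction_eq_of_nonzero _ _ hq0]
    simp
  obtain ⟨n, hn⟩ := WithTop.ne_top_iff_exists.mp hne
  refine ⟨n, hn.symm, ?_⟩
  have hf : Periodic (H ∘ ofComplex) (w : ℝ) :=
    Fermat.Agent.H82.cm_periodic_comp_ofComplex w H hper
  have hcomp : Periodic.cuspFunction ((w * m : ℕ) : ℝ) (H ∘ ofComplex) =ᶠ[𝓝[≠] (0 : ℂ)]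
      (Periodic.cuspFunction (w : ℝ) (H ∘ ofComplex)) ∘ (fun q => q ^ m) := by
    filter_upwards [self_mem_nhdsWithin] with q hq
    exact cuspFunction_mul_eq w m hw hm hf hq
  have hg : AnalyticAt ℂ (fun q : ℂ => q ^ m) 0 := by fun_prop
  have h0m : (0 : ℂ) ^ m = 0 := zero_pow hm.ne'
  have hord : analyticOrderAt (fun q : ℂ => q ^ m - (0 : ℂ) ^ m) 0 = m := by
    have h1 : (fun q : ℂ => q ^ m - (0 : ℂ) ^ m) = (fun q : ℂ => (q - 0) ^ m) := by
      funext q
      rw [h0m, sub_zero, sub_zero]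
    rw [h1]
    exact analyticOrderAt_centeredMonomial
  have hnc : ¬ EventuallyConst (fun q : ℂ => q ^ m) (𝓝 (0 : ℂ)) := by
    rw [eventuallyConst_iff_analyticOrderAt_sub_eq_top]
    show ¬ analyticOrderAt (fun q : ℂ => q ^ m - (0 : ℂ) ^ m) 0 = ⊤
    rw [hord]
    simp
  have hmero' : MeromorphicAt (Periodic.cuspFunction (w : ℝ) (H ∘ ofComplex))
      ((fun q : ℂ => q ^ m) 0) := by
    show MeromorphicAt (Periodic.cuspFunction (w : ℝ) (H ∘ ofComplex)) ((0 : ℂ) ^ m)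
    rw [h0m]
    exact hmero
  have key := MeromorphicAt.meromorphicOrderAt_comp hmero' hg hnc
  have key' : meromorphicOrderAt
      ((Periodic.cuspFunction (w : ℝ) (H ∘ ofComplex)) ∘ (fun q : ℂ => q ^ m)) 0 =
      meromorphicOrderAt (Periodic.cuspFunction (w : ℝ) (H ∘ ofComplex)) 0 *
        (analyticOrderAt (fun q : ℂ => q ^ m - (0 : ℂ) ^ m) 0).map Nat.cast := by
    have : meromorphicOrderAt (Periodic.cuspFunction (w : ℝ) (H ∘ ofComplex)) ((0 : ℂ) ^ m) =
        meromorphicOrderAt (Periodic.cuspFunction (w : ℝ) (H ∘ ofComplex)) 0 := by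
      rw [h0m]
    rw [← this]
    exact key
  unfold cuspOrd
  rw [meromorphicOrderAt_congr hcomp, key', hord, ← hn]
  simp only [ENat.map_natCast]
  rw [mul_comm]
  rfl

end Fermat.Agent.H7.EsA

end
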